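import Fermat.Agent.A2.Alg.H34.StepI

/-!
# WALL A2 / ALG (helper729): the local ring of a component as a valuation subring

`B ⊆ F` a noetherian chart with fraction field `F`, `p, q` ideals with `p` prime,
`p ⊓ q = (w)`, `¬ q ≤ p`, `w ≠ 0`.  Then `B_p ⊆ F` is a valuation subring (`compVal`) with
uniformiser `w`:

* `algebraMap_mem_compVal`  : `R ⊆ B_p`;
* `inv_not_mem_compVal`     : `w⁻¹ ∉ B_p`;
* `mul_inv_mem_compVal`     : every non-unit of `B_p` is divisible by `w`;
* `exists_pow_mul_mem_compVal` : `F = B_p[1/w]`;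
* `exists_mem_compVal_of_oneAt` : `OneAt B p u → u = 1 + w t`, `t ∈ B_p`.
-/

set_option autoImplicit false
set_option linter.unusedSectionVars false
set_option linter.style.haveILetI false

namespace Fermat.Agent.A2.Alg.H729

open Fermat.Agent.A2 Fermat.Agent.A2.Alg

variable {R F : Type*} [CommRing R] [Field F] [Algebra R F]

theorem one_not_mem_of_prime {B : Type*} [CommRing B] {p : Ideal B} (hp : p.IsPrime) :
    (1 : B) ∉ p := fun h => hp.ne_top ((Ideal.eq_top_iff_one p).2 h)

theorem coe_ne_zero_of_not_mem {B : Subalgebra R F} {p : Ideal B} {b : B} (hb : b ∉ p) :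
    (b : F) ≠ 0 := by
  intro h
  apply hb
  have : b = 0 := Subtype.ext h
  rw [this]
  exact p.zero_mem

/-- A normal form: `z * D = w ^ k * A` or `z⁻¹ * A = w ^ k * D`, `A, D ∉ p`. -/
theorem exists_normal_form (w : R) (B : Subalgebra R F) [IsNoetherianRing B]
    [IsFractionRing B F] (p q : Ideal B) (hp : p.IsPrime)
    (hpq : p ⊓ q = Ideal.span {algebraMap R B w}) (hqp : ¬ q ≤ p)
    (hw0 : algebraMap R F w ≠ 0) (z : F) (hz : z ≠ 0) :
    ∃ (k : ℕ) (A D : B), A ∉ p ∧ D ∉ p ∧
      (z * (D : F) = algebraMap R F w ^ k * (A : F) ∨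
        (0 < k ∧ z⁻¹ * (A : F) = algebraMap R F w ^ k * (D : F))) := by
  obtain ⟨k₁, k₂, A, D, hA, hD, e⟩ := H34.exists_decomp w B p q hp hpq hqp z hz
  have hA0 := coe_ne_zero_of_not_mem hA
  have hD0 := coe_ne_zero_of_not_mem hD
  rcases le_or_gt k₂ k₁ with h | h
  · refine ⟨k₁ - k₂, A, D, hA, hD, Or.inl ?_⟩
    have h1 : algebraMap R F w ^ k₁ = algebraMap R F w ^ k₂ * algebraMap R F w ^ (k₁ - k₂) := by
      rw [← pow_add]; congr 1; omega
    rw [h1] at e
    have h2 : algebraMap R F w ^ k₂ * (z * (D : F)) =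
        algebraMap R F w ^ k₂ * (algebraMap R F w ^ (k₁ - k₂) * (A : F)) := by
      rw [← mul_assoc _ _ (A : F), ← e]; ring
    exact mul_left_cancel₀ (pow_ne_zero _ hw0) h2
  · refine ⟨k₂ - k₁, A, D, hA, hD, Or.inr ⟨by omega, ?_⟩⟩
    have h1 : algebraMap R F w ^ k₂ = algebraMap R F w ^ k₁ * algebraMap R F w ^ (k₂ - k₁) := by
      rw [← pow_add]; congr 1; omega
    rw [h1] at e
    have h2 : z * (algebraMap R F w ^ (k₂ - k₁) * (D : F)) = (A : F) := by
      have h3 : algebraMap R F w ^ k₁ * (z * (algebraMap R F w ^ (k₂ - k₁) * (D : F))) =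
          algebraMap R F w ^ k₁ * (A : F) := by
        rw [← e]; ring
      exact mul_left_cancel₀ (pow_ne_zero _ hw0) h3
    rw [← h2]
    field_simp

/-- The local ring `B_p ⊆ F` of a component of the special fibre, as a valuation subring. -/
noncomputable def compVal (w : R) (B : Subalgebra R F) [IsNoetherianRing B]
    [IsFractionRing B F] (p q : Ideal B) (hp : p.IsPrime)
    (hpq : p ⊓ q = Ideal.span {algebraMap R B w}) (hqp : ¬ q ≤ p)
    (hw0 : algebraMap R F w ≠ 0) : ValuationSubring F where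
  carrier := {z | ∃ a b : B, b ∉ p ∧ z * (b : F) = (a : F)}
  mul_mem' := by
    rintro y z ⟨a, b, hb, e⟩ ⟨a', b', hb', e'⟩
    refine ⟨a * a', b * b', fun h => ?_, ?_⟩
    · rcases hp.mem_or_mem h with h | h
      · exact hb h
      · exact hb' h
    · push_cast
      rw [← e, ← e']
      ring
  one_mem' := ⟨1, 1, one_not_mem_of_prime hp, by simp⟩
  add_mem' := by
    rintro y z ⟨a, b, hb, e⟩ ⟨a', b', hb', e'⟩
    refine ⟨a * b' + a' * b, b * b', fun h => ?_, ?_⟩
    · rcases hp.mem_or_mem h with h | h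
      · exact hb h
      · exact hb' h
    · push_cast
      rw [← e, ← e']
      ring
  zero_mem' := ⟨0, 1, one_not_mem_of_prime hp, by simp⟩
  neg_mem' := by
    rintro y ⟨a, b, hb, e⟩
    refine ⟨-a, b, hb, ?_⟩
    push_cast
    rw [← e]
    ring
  mem_or_inv_mem' := by
    intro z
    by_cases hz : z = 0
    · left
      subst hz
      exact ⟨0, 1, one_not_mem_of_prime hp, by simp⟩
    obtain ⟨k, A, D, hA, hD, e | ⟨-, e⟩⟩ := exists_normal_form w B p q hp hpq hqp hw0 z hz
    · left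
      exact ⟨algebraMap R B w ^ k * A, D, hD, by rw [e]; rfl⟩
    · right
      exact ⟨algebraMap R B w ^ k * D, A, hA, by rw [e]; rfl⟩

section Props

variable (w : R) (B : Subalgebra R F) [IsNoetherianRing B] [IsFractionRing B F]
  (p q : Ideal B) (hp : p.IsPrime) (hpq : p ⊓ q = Ideal.span {algebraMap R B w})
  (hqp : ¬ q ≤ p) (hw0 : algebraMap R F w ≠ 0)

theorem mem_compVal {z : F} :
    z ∈ compVal w B p q hp hpq hqp hw0 ↔ ∃ a b : B, b ∉ p ∧ z * (b : F) = (a : F) := Iff.rfl

theorem algebraMap_mem_compVal (r : R) : algebraMap R F r ∈ compVal w B p q hp hpq hqp hw0 :=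
  ⟨algebraMap R B r, 1, one_not_mem_of_prime hp, by
    rw [OneMemClass.coe_one, mul_one]; rfl⟩

omit [IsNoetherianRing B] [IsFractionRing B F] in
include hpq in
theorem algebraMap_mem_p : algebraMap R B w ∈ p := by
  have : algebraMap R B w ∈ p ⊓ q := by
    rw [hpq]; exact Ideal.mem_span_singleton_self _
  exact this.1

theorem inv_not_mem_compVal : (algebraMap R F w)⁻¹ ∉ compVal w B p q hp hpq hqp hw0 := by
  rintro ⟨a, b, hb, e⟩
  apply hb
  have h1 : (b : F) = algebraMap R F w * (a : F) := by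
    rw [← e]; field_simp
  have h2 : b = algebraMap R B w * a := Subtype.ext h1
  rw [h2]
  exact p.mul_mem_right _ (algebraMap_mem_p w B p q hpq)

theorem mul_inv_mem_compVal (a : F) (ha : a ∈ compVal w B p q hp hpq hqp hw0)
    (hinv : a⁻¹ ∉ compVal w B p q hp hpq hqp hw0) :
    a * (algebraMap R F w)⁻¹ ∈ compVal w B p q hp hpq hqp hw0 := by
  by_cases hz : a = 0
  · subst hz
    rw [zero_mul]
    exact (compVal w B p q hp hpq hqp hw0).zero_mem
  obtain ⟨k, A, D, hA, hD, e | ⟨-, e⟩⟩ := exists_normal_form w B p q hp hpq hqp hw0 a hz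
  · rcases Nat.eq_zero_or_pos k with hk | hk
    · exfalso
      apply hinv
      subst hk
      rw [pow_zero, one_mul] at e
      refine ⟨D, A, hA, ?_⟩
      rw [← e]
      field_simp
    · refine ⟨algebraMap R B w ^ (k - 1) * A, D, hD, ?_⟩
      have h1 : algebraMap R F w ^ k = algebraMap R F w * algebraMap R F w ^ (k - 1) := by
        rw [← pow_succ']; congr 1; omega
      have h2 : ((algebraMap R B w ^ (k - 1) * A : B) : F) =
          algebraMap R F w ^ (k - 1) * (A : F) := rfl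
      rw [h2]
      have h3 : a * (algebraMap R F w)⁻¹ * (D : F) = (a * (D : F)) * (algebraMap R F w)⁻¹ := by
        ring
      rw [h3, e, h1]
      field_simp
  · exfalso
    apply hinv
    exact ⟨algebraMap R B w ^ k * D, A, hA, by rw [e]; rfl⟩

theorem exists_pow_mul_mem_compVal (c : F) :
    ∃ k : ℕ, algebraMap R F w ^ k * c ∈ compVal w B p q hp hpq hqp hw0 := by
  by_cases hz : c = 0
  · subst hz
    exact ⟨0, by rw [mul_zero]; exact (compVal w B p q hp hpq hqp hw0).zero_mem⟩
  obtain ⟨k, A, D, hA, hD, e | ⟨-, e⟩⟩ := exists_normal_form w B p q hp hpq hqp hw0 c hz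
  · exact ⟨0, by
      rw [pow_zero, one_mul]
      exact ⟨algebraMap R B w ^ k * A, D, hD, by rw [e]; rfl⟩⟩
  · refine ⟨k, A, D, hD, ?_⟩
    have hA0 := coe_ne_zero_of_not_mem hA
    have h1 : (A : F) = c * (algebraMap R F w ^ k * (D : F)) := by
      rw [← e]; field_simp
    rw [h1]
    ring

theorem exists_mem_compVal_of_oneAt {u : F} (hu : OneAt B p u) :
    ∃ t ∈ compVal w B p q hp hpq hqp hw0, u = 1 + algebraMap R F w * t := by
  obtain ⟨a, b, hb, hab, e⟩ := hu
  obtain ⟨s, hsq, hsp⟩ := SetLike.not_le_iff_exists.1 hqp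
  have h1 : (a - b) * s ∈ p ⊓ q := ⟨p.mul_mem_right _ hab, q.mul_mem_left _ hsq⟩
  rw [hpq, Ideal.mem_span_singleton'] at h1
  obtain ⟨a', ha'⟩ := h1
  have hbs : b * s ∉ p := fun h => by
    rcases hp.mem_or_mem h with h | h
    · exact hb h
    · exact hsp h
  have hb0 := coe_ne_zero_of_not_mem hb
  have hs0 := coe_ne_zero_of_not_mem hsp
  have ha'F : (a' : F) * algebraMap R F w = ((a : F) - (b : F)) * (s : F) :=
    congrArg (fun t : B => (t : F)) ha'
  refine ⟨(a' : F) * ((b : F) * (s : F))⁻¹, ⟨a', b * s, hbs, ?_⟩, ?_⟩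
  · push_cast
    field_simp
  · have h2 : u = (a : F) * (b : F)⁻¹ := by
      rw [← e]; field_simp
    rw [h2]
    have h3 : algebraMap R F w * ((a' : F) * ((b : F) * (s : F))⁻¹) =
        ((a' : F) * algebraMap R F w) * ((b : F) * (s : F))⁻¹ := by ring
    rw [h3, ha'F]
    field_simp
    ring

end Props

end Fermat.Agent.A2.Alg.H729
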