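import Fermat.Agent.A2.Alg.H729.Glue
import Fermat.Agent.A2.Alg.H729.CompVal
import Fermat.Agent.A2.H552.HConst
import Fermat.Agent.A2.Alg.H34.Asm

/-!
# WALL A2 / ALG — leaf GLUE (helper729)

`glue` : statement VERBATIM that of `Fermat/Agent/A2/Alg/Skel.lean` (architect helper34).

Proof: `glue_of_hconst` (route S with the canonical Gauss ring `H729.gaussO`, on
`H348.exists_pow_eq_of_local_factorisation`) and `H552.hconst_of_henselian` applied to the
valuation subring `compVal = (Bf)_{p₁}` (uniformiser `w`), on which `u ≡ 1`.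
-/

set_option autoImplicit false
set_option linter.unusedSectionVars false
set_option linter.style.haveILetI false
set_option linter.unusedVariables false

namespace Fermat.Agent.A2.Alg.H729

open Fermat.Agent.A2 Fermat.Agent.A2.Alg Fermat.Agent.A2.H729
open Polynomial

section OneAt

variable {R F : Type*} [CommRing R] [Field F] [Algebra R F]

/-- A locally factored Kummer class is `≡ 1` on both components. -/
theorem oneAt_of_locallyFactored {w : R} {B : Subalgebra R F} (c : SSChart w B) {m : ℕ} {u : F}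
    (hf : LocallyFactored B c m u) : OneAt B c.p₁ u ∧ OneAt B c.p₂ u := by
  have hspan₁ : Ideal.span {algebraMap R B w} ≤ c.p₁ := by
    rw [← c.inf_eq]; exact inf_le_left
  have hspan₂ : Ideal.span {algebraMap R B w} ≤ c.p₂ := by
    rw [← c.inf_eq]; exact inf_le_right
  have key : ∀ p : Ideal B, p.IsPrime → Ideal.span {algebraMap R B w} ≤ p →
      (∀ h : F, OneAt B c.p₁ h → OneAt B c.p₂ h → OneAt B p h) → OneAt B p u := by
    intro p hp hwp hsel
    obtain ⟨𝔪, h𝔪, hp𝔪⟩ := Ideal.exists_le_maximal p hp.ne_top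
    have hw𝔪 : algebraMap R B w ∈ 𝔪 := hp𝔪 (hwp (Ideal.mem_span_singleton_self _))
    obtain ⟨h, hh0, hloc, h1, h2⟩ := hf 𝔪 h𝔪 hw𝔪
    have hA : OneAt B p (u * h ^ m) := oneAt_of_locOne hp𝔪 hwp hloc
    have hB : OneAt B p (h ^ m)⁻¹ := oneAt_inv (oneAt_pow hp (hsel h h1 h2) m)
    have := oneAt_mul hp hA hB
    rwa [mul_assoc, mul_inv_cancel₀ (pow_ne_zero _ hh0), mul_one] at this
  exact ⟨key c.p₁ c.prime₁ hspan₁ fun _ h1 _ => h1, key c.p₂ c.prime₂ hspan₂ fun _ _ h2 => h2⟩

end OneAt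

variable {R E F : Type*} [CommRing R] [IsDomain R] [IsDiscreteValuationRing R]
  [HenselianLocalRing R] [IsAlgClosed (IsLocalRing.ResidueField R)]
  [Field E] [CharZero E] [Algebra R E] [IsFractionRing R E]
  [Field F] [Algebra E F] [Algebra R F] [IsScalarTower R E F]

/-- **GLUE.**  A Kummer class which is locally factored at every closed point of the special
fibre of both charts is trivial. -/
theorem glue (q m : ℕ) (hq : q.Prime) (hqR : (q : R) ∈ IsLocalRing.maximalIdeal R)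
    (hm : 0 < m) (hqm : ¬ q ∣ m)
    (w : R) (x : F) (Bf Bi : Subalgebra R F)
    (hBf : ChartCtx E w x Bf) (hBi : ChartCtx E w x⁻¹ Bi)
    (cf : SSChart w Bf) (ci : SSChart w Bi) (hcf : Incomparable cf) (hci : Incomparable ci)
    (u : F) (hu : u ≠ 0) (hdiv : DivisibleDiv E m u)
    (hf : LocallyFactored Bf cf m u) (hi : LocallyFactored Bi ci m u) :
    ∃ y : F, y ≠ 0 ∧ u = y ^ m := by
  refine glue_of_hconst q m hq hqR hm hqm w x Bf Bi hBf hBi cf ci hcf hci u hu hdiv hf hi ?_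
  obtain ⟨hN, -, hFr⟩ := H34.chart_instances' w x Bf hBf
  haveI := hN
  haveI := hFr
  have hw0 : algebraMap R F w ≠ 0 := by
    intro h
    exact hBf.hw.ne_zero (H34.algebraMap_RF_injective E (by rw [h, map_zero]))
  obtain ⟨t, ht, hut⟩ := exists_mem_compVal_of_oneAt w Bf cf.p₁ cf.p₂ cf.prime₁ cf.inf_eq hcf.2
    hw0 (oneAt_of_locallyFactored cf hf).1
  have hmres : (m : IsLocalRing.ResidueField R) ≠ 0 := by
    obtain ⟨mi, hmi⟩ := exists_inv_natCast (R := R) q m hq hqR hqm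
    intro h0
    have h1 := congrArg (IsLocalRing.residue R) hmi
    rw [map_mul, map_natCast, h0, zero_mul, map_one] at h1
    exact zero_ne_one h1
  exact H552.hconst_of_henselian E w hBf.hw
    (compVal w Bf cf.p₁ cf.p₂ cf.prime₁ cf.inf_eq hcf.2 hw0)
    (algebraMap_mem_compVal w Bf cf.p₁ cf.p₂ cf.prime₁ cf.inf_eq hcf.2 hw0)
    (inv_not_mem_compVal w Bf cf.p₁ cf.p₂ cf.prime₁ cf.inf_eq hcf.2 hw0)
    (mul_inv_mem_compVal w Bf cf.p₁ cf.p₂ cf.prime₁ cf.inf_eq hcf.2 hw0)
    (exists_pow_mul_mem_compVal w Bf cf.p₁ cf.p₂ cf.prime₁ cf.inf_eq hcf.2 hw0)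
    m hmres t ht u hut

/-- The leaf `GlueLeaf` of `Alg/H34/Asm.lean` (plug-in form). -/
theorem glueLeaf : H34.GlueLeaf := by
  intro R E F _ _ _ _ _ _ _ _ _ _ _ _ _ q m hq hqR hm hqm w x Bf Bi hBf hBi cf ci hcf hci u hu
    hdiv hf hi
  exact glue q m hq hqR hm hqm w x Bf Bi hBf hBi cf ci hcf hci u hu hdiv hf hi

end Fermat.Agent.A2.Alg.H729
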